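import Fermat.Agent.HK.Multiplier.Series
import Fermat.Agent.HK.Defs
import Mathlib.NumberTheory.ModularForms.EisensteinSeries.QExpansion
import Mathlib.NumberTheory.Modular

/-!
# The Eisenstein series with a parabolic-elliptic multiplier

For a character `χ` of `Γ₀(N)` of finite order, trivial on non-hyperbolic elements, we define
`multSeries N χ k z = ½ ∑ χ(γ)⁻¹ (c z + d) ^ (-k)`, the sum over bottom rows `(c, d)` of elements
`γ ∈ Γ₀(N)`.
-/

set_option autoImplicit false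

noncomputable section

open UpperHalfPlane Filter Topology Matrix ModularForm EisensteinSeries Manifold CongruenceSubgroup
open scoped MatrixGroups

namespace Fermat.Agent.HK.Multiplier

/-- `χ` is multiplicative, `n`-torsion and trivial on non-hyperbolic elements. -/
structure IsMultiplier (N n : ℕ) (χ : Gamma0 N → ℂ) : Prop where
  map_mul : ∀ γ δ, χ (γ * δ) = χ γ * χ δ
  eq_one : ∀ γ : Gamma0 N, IsNonHyperbolic (γ : SL(2, ℤ)) → χ γ = 1
  pow_eq_one : ∀ γ, χ γ ^ n = 1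

lemma isMultiplier_charValue {N n : ℕ} [NeZero n] (φ : parEllHoms N (ZMod n)) :
    IsMultiplier N n (charValue N φ) where
  map_mul γ δ := by
    simp only [charValue, ofMul_mul, map_add, AddChar.map_add_eq_mul]
  eq_one γ hγ := by
    simp [charValue, mem_parEllHoms.mp φ.2 γ hγ]
  pow_eq_one γ := by
    simp [charValue, ← AddChar.map_nsmul_eq_pow]

namespace IsMultiplier

variable {N n : ℕ} {χ : Gamma0 N → ℂ} (hχ : IsMultiplier N n χ)
include hχ

lemma map_one : χ 1 = 1 := hχ.eq_one 1 (by simp [IsNonHyperbolic])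

lemma ne_zero (γ : Gamma0 N) : χ γ ≠ 0 := fun h ↦ by
  have := hχ.map_mul γ γ⁻¹
  simp [h, hχ.map_one] at this

lemma map_inv (γ : Gamma0 N) : χ γ⁻¹ = (χ γ)⁻¹ := by
  refine eq_inv_of_mul_eq_one_left ?_
  rw [← hχ.map_mul, inv_mul_cancel, hχ.map_one]

lemma norm_eq_one [NeZero n] (γ : Gamma0 N) : ‖χ γ‖ = 1 :=
  Complex.norm_eq_one_of_pow_eq_one (hχ.pow_eq_one γ) (NeZero.ne n)

end IsMultiplier

lemma isMultiplier_one (N : ℕ) : IsMultiplier N 1 (fun _ ↦ (1 : ℂ)) :=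
  ⟨fun _ _ ↦ (mul_one _).symm, fun _ _ ↦ rfl, fun _ ↦ one_pow _⟩

variable (N : ℕ)

/-- The bottom row of an element of `Γ₀(N)`. -/
def bottomRow (γ : Gamma0 N) : Fin 2 → ℤ := ((γ : SL(2, ℤ)) : Matrix (Fin 2) (Fin 2) ℤ) 1

lemma bottomRow_mul (γ δ : Gamma0 N) :
    bottomRow N (γ * δ) =
      bottomRow N γ ᵥ* ((δ : SL(2, ℤ)) : Matrix (Fin 2) (Fin 2) ℤ) := rfl

open scoped Classical in
/-- The weight attached to a pair of integers by a multiplier. -/
def multWeight (χ : Gamma0 N → ℂ) (v : Fin 2 → ℤ) : ℂ :=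
  if h : ∃ γ : Gamma0 N, bottomRow N γ = v then (χ h.choose)⁻¹ else 0

/-- The Eisenstein series of weight `k` with multiplier `χ`, normalised to tend to `1` at `i∞`. -/
def multSeries (χ : Gamma0 N → ℂ) (k : ℕ) : ℍ → ℂ :=
  (1 / 2 : ℂ) • wSeries (multWeight N χ) k

variable {N} {n : ℕ} {χ : Gamma0 N → ℂ}

lemma eq_one_of_bottomRow_eq (hχ : IsMultiplier N n χ) {γ : Gamma0 N}
    (h : bottomRow N γ = ![0, 1]) : χ γ = 1 := by
  refine hχ.eq_one γ ?_
  have h0 : (γ : SL(2, ℤ)) 1 0 = 0 := congr_fun h 0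
  have h1 : (γ : SL(2, ℤ)) 1 1 = 1 := congr_fun h 1
  have hdet := (γ : SL(2, ℤ)).det_coe
  rw [det_fin_two, h0, h1] at hdet
  rw [IsNonHyperbolic, trace_fin_two, show (γ : SL(2, ℤ)) 0 0 = 1 by linarith, h1]
  norm_num

lemma multWeight_bottomRow (hχ : IsMultiplier N n χ) (γ : Gamma0 N) :
    multWeight N χ (bottomRow N γ) = (χ γ)⁻¹ := by
  have h : ∃ δ : Gamma0 N, bottomRow N δ = bottomRow N γ := ⟨γ, rfl⟩
  rw [multWeight, dif_pos h]
  have h1 : χ (h.choose * γ⁻¹) = 1 := by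
    refine eq_one_of_bottomRow_eq hχ ?_
    rw [bottomRow_mul, h.choose_spec, ← bottomRow_mul, mul_inv_cancel]
    ext i
    fin_cases i <;> simp [bottomRow]
  rw [hχ.map_mul, hχ.map_inv, mul_inv_eq_one₀ (hχ.ne_zero γ)] at h1
  rw [h1]

lemma norm_multWeight_le [NeZero n] (hχ : IsMultiplier N n χ) (v : Fin 2 → ℤ) :
    ‖multWeight N χ v‖ ≤ 1 := by
  rw [multWeight]
  split_ifs with h
  · rw [norm_inv, hχ.norm_eq_one, inv_one]
  · simp

lemma multWeight_vecMul (hχ : IsMultiplier N n χ) (γ : Gamma0 N) (v : Fin 2 → ℤ) :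
    multWeight N χ (v ᵥ* ((γ : SL(2, ℤ)) : Matrix (Fin 2) (Fin 2) ℤ)) =
      (χ γ)⁻¹ * multWeight N χ v := by
  by_cases h : ∃ δ : Gamma0 N, bottomRow N δ = v
  · obtain ⟨δ, rfl⟩ := h
    rw [← bottomRow_mul, multWeight_bottomRow hχ, multWeight_bottomRow hχ, hχ.map_mul, mul_inv,
      mul_comm]
  · rw [multWeight, dif_neg, multWeight, dif_neg h, mul_zero]
    rintro ⟨δ, hδ⟩
    refine h ⟨δ * γ⁻¹, ?_⟩
    rw [bottomRow_mul, hδ]
    exact vecMul_vecMul_inv _ _

lemma multWeight_vecMul_inv (hχ : IsMultiplier N n χ) (γ : Gamma0 N) (v : Fin 2 → ℤ) :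
    multWeight N χ (v ᵥ* (((γ : SL(2, ℤ))⁻¹ : SL(2, ℤ)) : Matrix (Fin 2) (Fin 2) ℤ)) =
      χ γ * multWeight N χ v := by
  simpa [hχ.map_inv] using multWeight_vecMul hχ γ⁻¹ v

/-- The conjugate of `T ^ N` by any `A : SL(2, ℤ)` lies in `Γ₀(N)`. -/
lemma conj_T_zpow_mem_Gamma0 (A : SL(2, ℤ)) : A * ModularGroup.T ^ (N : ℤ) * A⁻¹ ∈ Gamma0 N := by
  have hT : ModularGroup.T ^ (N : ℤ) ∈ Gamma N := ModularGroup_T_pow_mem_Gamma N N dvd_rfl
  have h : A * ModularGroup.T ^ (N : ℤ) * A⁻¹ ∈ Gamma N :=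
    (Gamma_normal N).conj_mem _ hT A
  simp only [Gamma_mem, Gamma0_mem] at h ⊢
  exact h.2.2.1

lemma isNonHyperbolic_conj_T_zpow (A : SL(2, ℤ)) (m : ℤ) :
    IsNonHyperbolic (A * ModularGroup.T ^ m * A⁻¹) := by
  have : ((A * ModularGroup.T ^ m * A⁻¹ : SL(2, ℤ)) : Matrix (Fin 2) (Fin 2) ℤ).trace = 2 := by
    have e : ((A * ModularGroup.T ^ m * A⁻¹ : SL(2, ℤ)) : Matrix (Fin 2) (Fin 2) ℤ).trace =
        ((A⁻¹ * (A * ModularGroup.T ^ m) : SL(2, ℤ)) : Matrix (Fin 2) (Fin 2) ℤ).trace :=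
      trace_mul_comm _ _
    rw [e, inv_mul_cancel_left, ModularGroup.coe_T_zpow, trace_fin_two]
    rfl
  rw [IsNonHyperbolic, this]
  norm_num

lemma multWeight_periodic (hχ : IsMultiplier N n χ) (A : SL(2, ℤ)) (v : Fin 2 → ℤ) :
    multWeight N χ ((v ᵥ* ((ModularGroup.T ^ (N : ℤ) : SL(2, ℤ)) : Matrix (Fin 2) (Fin 2) ℤ)) ᵥ*
        ((A⁻¹ : SL(2, ℤ)) : Matrix (Fin 2) (Fin 2) ℤ)) =
      multWeight N χ (v ᵥ* ((A⁻¹ : SL(2, ℤ)) : Matrix (Fin 2) (Fin 2) ℤ)) := by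
  have := multWeight_vecMul hχ ⟨_, conj_T_zpow_mem_Gamma0 A⟩
    (v ᵥ* ((A⁻¹ : SL(2, ℤ)) : Matrix (Fin 2) (Fin 2) ℤ))
  rw [hχ.eq_one _ (isNonHyperbolic_conj_T_zpow A _), inv_one, one_mul] at this
  rw [← this]
  congr 1
  simp only [Matrix.SpecialLinearGroup.coe_mul, ← vecMul_vecMul, vecMul_inv_vecMul]

variable [NeZero N] [NeZero n] {k : ℕ}

lemma multSeries_mdifferentiable (hχ : IsMultiplier N n χ) (hk : 3 ≤ k) :
    MDiff (multSeries N χ k) :=
  (wSeries_mdifferentiable (norm_multWeight_le hχ) (by exact_mod_cast hk)).const_smul _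

lemma multSeries_smul (hχ : IsMultiplier N n χ) (γ : Gamma0 N) (z : ℍ) :
    multSeries N χ k ((γ : SL(2, ℤ)) • z) =
      χ γ * denom (γ : SL(2, ℤ)) z ^ k * multSeries N χ k z := by
  simp only [multSeries, Pi.smul_apply, smul_eq_mul, wSeries_smul]
  simp only [wSeries, multWeight_vecMul_inv hχ, mul_assoc, tsum_mul_left, zpow_natCast]
  ring

lemma multSeries_slash (hχ : IsMultiplier N n χ) (γ : Gamma0 N) :
    multSeries N χ k ∣[(k : ℤ)] (γ : SL(2, ℤ)) = χ γ • multSeries N χ k := by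
  ext z
  rw [SL_slash_apply, multSeries_smul hχ, Pi.smul_apply, smul_eq_mul, _root_.zpow_neg, zpow_natCast]
  field_simp [denom_ne_zero]

lemma multSeries_slash_isBoundedAtImInfty (hχ : IsMultiplier N n χ) (hk : 3 ≤ k)
    (A : SL(2, ℤ)) : IsBoundedAtImInfty (multSeries N χ k ∣[(k : ℤ)] A) := by
  rw [multSeries, SL_smul_slash, wSeries_slash]
  refine Asymptotics.IsBigO.const_smul_left ?_ _
  exact wSeries_isBoundedAtImInfty (fun v ↦ norm_multWeight_le hχ _) (by exact_mod_cast hk)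
    (NeZero.pos N) (multWeight_periodic hχ A)

lemma multWeight_periodic_one (hχ : IsMultiplier N n χ) (v : Fin 2 → ℤ) :
    multWeight N χ (v ᵥ* ((ModularGroup.T ^ (N : ℤ) : SL(2, ℤ)) : Matrix (Fin 2) (Fin 2) ℤ)) =
      multWeight N χ v := by
  simpa using multWeight_periodic hχ 1 v

lemma tsum_wConst_multWeight (hχ : IsMultiplier N n χ) (hk2 : Even k) :
    ∑' v, wConst (multWeight N χ) k v = 2 := by
  have hrow : ∀ d : ℤ, d ^ 2 = 1 → wConst (multWeight N χ) k ![0, d] = 1 := by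
    intro d hd
    obtain rfl | rfl : d = 1 ∨ d = -1 := by
      simpa [sq, Int.eq_one_or_neg_one_of_mul_eq_one] using Int.eq_one_or_neg_one_of_mul_eq_one
        (show d * d = 1 by linarith [sq d])
    · have h1 : multWeight N χ ![0, 1] = 1 := by
        have : bottomRow N 1 = ![0, 1] := by ext i; fin_cases i <;> simp [bottomRow]
        rw [← this, multWeight_bottomRow hχ, hχ.map_one, inv_one]
      simp [wConst, h1]
    · have hneg : (-1 : SL(2, ℤ)) ∈ Gamma0 N := by simp [Gamma0_mem]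
      have h1 : multWeight N χ ![0, -1] = 1 := by
        have : bottomRow N ⟨-1, hneg⟩ = ![0, -1] := by ext i; fin_cases i <;> simp [bottomRow]
        rw [← this, multWeight_bottomRow hχ, hχ.eq_one _ ?_, inv_one]
        simp [IsNonHyperbolic, trace_fin_two]
      simp [wConst, h1, hk2.neg_one_pow]
  rw [tsum_eq_sum (s := {![0, 1], ![0, -1]}), Finset.sum_pair (by decide), hrow 1 rfl,
    hrow (-1) rfl]
  · norm_num
  intro v hv
  rw [wConst]
  split_ifs with h0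
  · by_cases h : ∃ γ : Gamma0 N, bottomRow N γ = v
    · obtain ⟨γ, rfl⟩ := h
      exfalso
      apply hv
      have h00 : (γ : SL(2, ℤ)) 1 0 = 0 := h0
      have hdet := (γ : SL(2, ℤ)).det_coe
      rw [det_fin_two, h00, mul_zero, sub_zero] at hdet
      rcases Int.eq_one_or_neg_one_of_mul_eq_one' hdet with ⟨-, hd⟩ | ⟨-, hd⟩
      · refine Finset.mem_insert.mpr (Or.inl ?_)
        ext i; fin_cases i <;> simp [bottomRow, h00, hd]
      · refine Finset.mem_insert.mpr (Or.inr (Finset.mem_singleton.mpr ?_))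
        ext i; fin_cases i <;> simp [bottomRow, h00, hd]
    · rw [multWeight, dif_neg h, zero_mul]
  · rfl

lemma multSeries_tendsto (hχ : IsMultiplier N n χ) (hk : 3 ≤ k) (hk2 : Even k) :
    Tendsto (multSeries N χ k) atImInfty (𝓝 1) := by
  have := (wSeries_tendsto_atImInfty (norm_multWeight_le hχ) (k := k) (by exact_mod_cast hk)
    (NeZero.pos N) (multWeight_periodic_one hχ)).const_mul (1 / 2 : ℂ)
  rw [tsum_wConst_multWeight hχ hk2, show (1 / 2 : ℂ) * 2 = 1 by norm_num] at this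
  exact this

lemma multSeries_ne_zero (hχ : IsMultiplier N n χ) (hk : 3 ≤ k) (hk2 : Even k) :
    multSeries N χ k ≠ 0 := fun h ↦
  one_ne_zero (tendsto_nhds_unique (h ▸ multSeries_tendsto hχ hk hk2) tendsto_const_nhds)

/-- The `n`-th power of the series: a modular form of weight `n k` on `Γ₀(N)`. -/
def multSeriesPow (hχ : IsMultiplier N n χ) (hk : 3 ≤ k) :
    ModularForm ((Gamma0 N : Subgroup SL(2, ℤ)) : Subgroup (GL (Fin 2) ℝ)) ((n * k : ℕ) : ℤ) where
  toFun z := multSeries N χ k z ^ n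
  slash_action_eq' A hA := by
    obtain ⟨A, hA', rfl⟩ := hA
    ext z
    change ((fun z ↦ multSeries N χ k z ^ n) ∣[((n * k : ℕ) : ℤ)] A) z = multSeries N χ k z ^ n
    have hden := denom_ne_zero (A : GL (Fin 2) ℝ) z
    rw [SL_slash_apply, multSeries_smul hχ ⟨A, hA'⟩, mul_pow, mul_pow, hχ.pow_eq_one, one_mul,
      _root_.zpow_neg, zpow_natCast, ← pow_mul, mul_comm k n]
    field_simp
  holo' := (multSeries_mdifferentiable hχ hk).pow n
  bdd_at_cusps' {c} hc := by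
    rw [Subgroup.IsArithmetic.isCusp_iff_isCusp_SL2Z] at hc
    rw [OnePoint.isBoundedAt_iff_forall_SL2Z hc]
    intro A _
    obtain ⟨M, B, hM⟩ := isBoundedAtImInfty_iff.mp
      (multSeries_slash_isBoundedAtImInfty hχ hk A)
    refine isBoundedAtImInfty_iff.mpr ⟨M ^ n, B, fun z hz ↦ ?_⟩
    refine le_trans (le_of_eq ?_) (pow_le_pow_left₀ (norm_nonneg _) (hM z hz) n)
    rw [← norm_pow]
    congr 1
    simp only [SL_slash_apply, mul_pow, _root_.zpow_neg, zpow_natCast, inv_pow, ← pow_mul]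
    rw [mul_comm k n]

@[simp] lemma coe_multSeriesPow (hχ : IsMultiplier N n χ) (hk : 3 ≤ k) (z : ℍ) :
    multSeriesPow hχ hk z = multSeries N χ k z ^ n := rfl

lemma multSeriesPow_tendsto (hχ : IsMultiplier N n χ) (hk : 3 ≤ k) (hk2 : Even k) :
    Tendsto (multSeriesPow hχ hk) atImInfty (𝓝 1) := by
  have := (multSeries_tendsto hχ hk hk2).pow n
  rw [one_pow] at this
  exact this

lemma multSeriesPow_ne_zero (hχ : IsMultiplier N n χ) (hk : 3 ≤ k) (hk2 : Even k) :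
    multSeriesPow hχ hk ≠ 0 := fun h ↦ one_ne_zero
  (tendsto_nhds_unique (h ▸ multSeriesPow_tendsto hχ hk hk2) tendsto_const_nhds)

end Fermat.Agent.HK.Multiplier
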