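import Mathlib.NumberTheory.ModularForms.EisensteinSeries.Basic
import Mathlib.Analysis.Normed.Group.Tannery

/-!
# Eisenstein series with bounded weights

For a bounded function `w` on pairs of integers we study
`z ↦ ∑' v, w v * (v 0 * z + v 1) ^ (-k)`: convergence, holomorphy, behaviour under the slash
action and the limit at `i∞` when `w` is periodic under a translation.
-/

noncomputable section

open UpperHalfPlane Filter Topology Matrix ModularForm EisensteinSeries Complex Manifold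
open scoped MatrixGroups

namespace Fermat.Agent.HK.Multiplier

/-- The Eisenstein series of weight `k` with weights `w`. -/
def wSeries (w : (Fin 2 → ℤ) → ℂ) (k : ℤ) (z : ℍ) : ℂ := ∑' v, w v * eisSummand k v z

variable {w : (Fin 2 → ℤ) → ℂ} {k : ℤ}

lemma summable_wSeries (hw : ∀ v, ‖w v‖ ≤ 1) (hk : 3 ≤ k) (z : ℍ) :
    Summable fun v ↦ w v * eisSummand k v z := by
  refine Summable.of_norm_bounded (summable_norm_eisSummand hk z) fun v ↦ ?_
  rw [norm_mul]
  exact mul_le_of_le_one_left (norm_nonneg _) (hw v)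

lemma vecMul_inv_vecMul (A : SL(2, ℤ)) (v : Fin 2 → ℤ) :
    (v ᵥ* ((A⁻¹ : SL(2, ℤ)) : Matrix (Fin 2) (Fin 2) ℤ)) ᵥ* (A : Matrix (Fin 2) (Fin 2) ℤ) = v := by
  simp [vecMul_vecMul, adjugate_mul]

lemma vecMul_vecMul_inv (A : SL(2, ℤ)) (v : Fin 2 → ℤ) :
    (v ᵥ* (A : Matrix (Fin 2) (Fin 2) ℤ)) ᵥ* ((A⁻¹ : SL(2, ℤ)) : Matrix (Fin 2) (Fin 2) ℤ) = v := by
  simp [vecMul_vecMul, mul_adjugate]

/-- Right multiplication by `A : SL(2, ℤ)` as a permutation of `Fin 2 → ℤ`. -/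
def vecMulEquiv (A : SL(2, ℤ)) : (Fin 2 → ℤ) ≃ (Fin 2 → ℤ) where
  toFun v := v ᵥ* (A : Matrix (Fin 2) (Fin 2) ℤ)
  invFun v := v ᵥ* ((A⁻¹ : SL(2, ℤ)) : Matrix (Fin 2) (Fin 2) ℤ)
  left_inv v := vecMul_vecMul_inv A v
  right_inv v := vecMul_inv_vecMul A v

@[simp] lemma vecMulEquiv_apply (A : SL(2, ℤ)) (v : Fin 2 → ℤ) : vecMulEquiv A v = v ᵥ* (A : Matrix (Fin 2) (Fin 2) ℤ) := rfl

lemma wSeries_smul (A : SL(2, ℤ)) (z : ℍ) :
    wSeries w k (A • z) = denom A z ^ k * wSeries (fun v ↦ w (v ᵥ* ((A⁻¹ : SL(2, ℤ)) : Matrix (Fin 2) (Fin 2) ℤ))) k z := by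
  simp only [wSeries, eisSummand_SL2_apply, mul_left_comm _ (denom A z ^ k), tsum_mul_left]
  congr 1
  rw [← (vecMulEquiv A).tsum_eq fun v ↦ w (v ᵥ* ((A⁻¹ : SL(2, ℤ)) : Matrix (Fin 2) (Fin 2) ℤ)) * eisSummand k v z]
  refine tsum_congr fun v ↦ ?_
  rw [vecMulEquiv_apply, vecMul_vecMul_inv]

lemma wSeries_slash (A : SL(2, ℤ)) :
    wSeries w k ∣[k] A = wSeries (fun v ↦ w (v ᵥ* ((A⁻¹ : SL(2, ℤ)) : Matrix (Fin 2) (Fin 2) ℤ))) k := by
  ext z
  rw [SL_slash_apply, wSeries_smul, zpow_neg, mul_right_comm,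
    mul_inv_cancel₀ (zpow_ne_zero _ (denom_ne_zero _ z)), one_mul]

lemma wSeries_mdifferentiable (hw : ∀ v, ‖w v‖ ≤ 1) (hk : 3 ≤ k) :
    MDiff (wSeries w k) := by
  have hk' : (2 : ℝ) < k := by norm_cast
  have hsum : Summable fun x : Fin 2 → ℤ ↦ ‖x‖ ^ (-(k : ℝ)) := summable_one_div_norm_rpow hk'
  have hloc : TendstoLocallyUniformly
      (fun (s : Finset (Fin 2 → ℤ)) (z : ℍ) ↦ ∑ v ∈ s, w v * eisSummand k v z)
      (wSeries w k) atTop := by
    rw [tendstoLocallyUniformly_iff_forall_isCompact]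
    intro K hK
    obtain ⟨A, B, hB, hK⟩ := subset_verticalStrip_of_isCompact hK
    refine (tendstoUniformlyOn_tsum (hu := hsum.mul_left <| r ⟨⟨A, B⟩, hB⟩ ^ (-k : ℝ))
      (fun v z hz ↦ ?_)).mono hK
    rw [norm_mul]
    refine (mul_le_of_le_one_left (norm_nonneg _) (hw v)).trans ?_
    simpa only [eisSummand, one_div, ← zpow_neg, norm_zpow, ← Real.rpow_intCast,
      Int.cast_neg] using summand_bound_of_mem_verticalStrip (by positivity) v hB hz
  rw [UpperHalfPlane.mdifferentiable_iff]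
  have hloc' : TendstoLocallyUniformlyOn
      (fun (s : Finset (Fin 2 → ℤ)) ↦
        (fun z : ℍ ↦ ∑ v ∈ s, w v * eisSummand k v z) ∘ ofComplex)
      (wSeries w k ∘ ofComplex) atTop {z : ℂ | 0 < z.im} := by
    rw [← upperHalfPlaneSet, ← range_coe, ← Set.image_univ]
    apply TendstoLocallyUniformlyOn.comp (s := ⊤) _ _ _
      (OpenPartialHomeomorph.continuousOn_symm _)
    · simpa only [Set.top_eq_univ, tendstoLocallyUniformlyOn_univ] using hloc
    · simp only [IsOpenEmbedding.toOpenPartialHomeomorph_target, Set.top_eq_univ,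
        Set.mapsTo_range_iff, Set.mem_univ, forall_const]
  refine hloc'.differentiableOn (Eventually.of_forall fun s ↦ ?_) isOpen_upperHalfPlaneSet
  refine DifferentiableOn.fun_sum fun v _ ↦ ?_
  exact (eisSummand_extension_differentiableOn k v).const_mul (w v)

/-- The weights which survive at `i∞`. -/
def wConst (w : (Fin 2 → ℤ) → ℂ) (k : ℤ) (v : Fin 2 → ℤ) : ℂ :=
  if v 0 = 0 then w v * (v 1 : ℂ) ^ (-k) else 0

lemma tendsto_summand_atImInfty (hk : 0 < k) (v : Fin 2 → ℤ) :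
    Tendsto (fun z : ℍ ↦ w v * eisSummand k v z) atImInfty (𝓝 (wConst w k v)) := by
  by_cases h0 : v 0 = 0
  · simp [wConst, eisSummand, h0]
  · rw [wConst, if_neg h0, ← mul_zero (w v)]
    refine Tendsto.const_mul _ (squeeze_zero_norm (fun z ↦ ?_)
      ((tendsto_zpow_atTop_zero (neg_neg_of_pos hk)).comp
        (tendsto_comap : Tendsto UpperHalfPlane.im atImInfty atTop)))
    rw [eisSummand, norm_zpow, Function.comp_apply, zpow_neg, zpow_neg]
    refine inv_anti₀ (zpow_pos z.im_pos _) ?_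
    lift k to ℕ using hk.le
    rw [zpow_natCast, zpow_natCast]
    refine pow_le_pow_left₀ z.im_pos.le ?_ k
    calc z.im ≤ |(v 0 : ℝ)| * z.im := by
          refine le_mul_of_one_le_left z.im_pos.le ?_
          exact_mod_cast Int.one_le_abs h0
      _ = |((v 0 : ℂ) * z + v 1).im| := by simp [abs_mul, abs_of_pos z.im_pos]
      _ ≤ ‖(v 0 : ℂ) * z + v 1‖ := abs_im_le_norm _

lemma wSeries_T_zpow_smul {h : ℕ} (hper : ∀ v, w (v ᵥ* ↑(ModularGroup.T ^ (h : ℤ))) = w v)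
    (n : ℤ) (z : ℍ) : wSeries w k ((ModularGroup.T ^ ((h : ℤ) * n)) • z) = wSeries w k z := by
  have hstep : ∀ z : ℍ, wSeries w k ((ModularGroup.T ^ (h : ℤ)) • z) = wSeries w k z := by
    intro z
    rw [wSeries_smul]
    have hden : denom (ModularGroup.T ^ (h : ℤ) : SL(2, ℤ)) (z : ℂ) = 1 := by
      rw [ModularGroup.denom_apply, ModularGroup.coe_T_zpow]
      simp
    rw [hden, one_zpow, one_mul]
    congr 1
    funext v
    have := hper (v ᵥ* (((ModularGroup.T ^ (h : ℤ))⁻¹ : SL(2, ℤ)) : Matrix (Fin 2) (Fin 2) ℤ))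
    rw [vecMul_inv_vecMul] at this
    exact this.symm
  induction n using Int.induction_on generalizing z with
  | zero => simp
  | succ n ih => rw [mul_add, mul_one, zpow_add, mul_smul, ih, hstep]
  | pred n ih =>
    rw [← ih z, ← hstep ((ModularGroup.T ^ ((h : ℤ) * (-(n : ℤ) - 1))) • z), ← mul_smul, ← zpow_add]
    ring_nf

lemma wSeries_tendsto_atImInfty (hw : ∀ v, ‖w v‖ ≤ 1) (hk : 3 ≤ k) {h : ℕ} (hh : 0 < h)
    (hper : ∀ v, w (v ᵥ* ↑(ModularGroup.T ^ (h : ℤ))) = w v) :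
    Tendsto (wSeries w k) atImInfty (𝓝 (∑' v, wConst w k v)) := by
  have hk' : (2 : ℝ) < k := by norm_cast
  choose n hn using fun z : ℍ ↦ ModularGroup_T_zpow_mem_verticalStrip z hh
  let σ : ℍ → ℍ := fun z ↦ (ModularGroup.T ^ ((h : ℤ) * n z)) • z
  have hσim : ∀ z, (σ z).im = z.im := fun z ↦ by
    simp only [σ, modular_T_zpow_smul, vadd_im]
  have hσ : Tendsto σ atImInfty (atImInfty ⊓ 𝓟 (verticalStrip h 2)) := by
    refine tendsto_inf.mpr ⟨?_, ?_⟩
    · rw [atImInfty, tendsto_comap_iff]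
      simpa only [Function.comp_def, hσim] using tendsto_comap
    · rw [tendsto_principal, eventually_iff, atImInfty_mem]
      refine ⟨2, fun z hz ↦ ?_⟩
      exact verticalStrip_anti_right _ hz (hn z)
  have key : Tendsto (wSeries w k) (atImInfty ⊓ 𝓟 (verticalStrip h 2))
      (𝓝 (∑' v, wConst w k v)) := by
    refine tendsto_tsum_of_dominated_convergence
      (bound := fun v ↦ r ⟨⟨h, 2⟩, two_pos⟩ ^ (-k : ℝ) * ‖v‖ ^ (-(k : ℝ)))
      ((summable_one_div_norm_rpow hk').mul_left _)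
      (fun v ↦ (tendsto_summand_atImInfty (by lia) v).mono_left inf_le_left) ?_
    refine eventually_inf_principal.mpr (Eventually.of_forall fun z hz v ↦ ?_)
    rw [norm_mul]
    refine (mul_le_of_le_one_left (norm_nonneg _) (hw v)).trans ?_
    simpa only [eisSummand, one_div, ← zpow_neg, norm_zpow, ← Real.rpow_intCast,
      Int.cast_neg] using summand_bound_of_mem_verticalStrip (by positivity) v two_pos hz
  exact (key.comp hσ).congr fun z ↦ wSeries_T_zpow_smul hper _ _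

lemma wSeries_isBoundedAtImInfty (hw : ∀ v, ‖w v‖ ≤ 1) (hk : 3 ≤ k) {h : ℕ} (hh : 0 < h)
    (hper : ∀ v, w (v ᵥ* ↑(ModularGroup.T ^ (h : ℤ))) = w v) :
    IsBoundedAtImInfty (wSeries w k) :=
  (wSeries_tendsto_atImInfty hw hk hh hper).isBigO_one ℝ

end Fermat.Agent.HK.Multiplier
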